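/-
S25, block DICT (helper386): algebraic calculus of semilinear base changes, on top of
helper505's `IsSL` / `IsBC` (`Fermat/Agent/S25/H505/SemilinearBC.lean`), and the bridge to the
frozen `IsSemilinearBaseChange` of `DefsAlg.lean`.
-/
import Fermat.Agent.S25.DefsAlg
import Fermat.Agent.S25.H505.SemilinearBC

set_option autoImplicit false

universe u

namespace Fermat.Agent.S25.H386

open TensorProduct Fermat.Agent.S25.H505

section Basic

variable {R R' R'' : Type u} [CommRing R] [CommRing R'] [CommRing R'']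
  {N N' Q : Type u} [AddCommGroup N] [AddCommGroup N'] [AddCommGroup Q]
  [Module R N] [Module R' N'] [Module R'' Q]

/-- Two semilinear maps out of a base change which agree on the image of the base-change map
are equal. -/
theorem isBC_ext {ρ : R →+* R'} {g : N →+ N'} (h : IsBC ρ g) {ρ' : R' →+* R''}
    {q₁ q₂ : N' →+ Q} (h₁ : IsSL ρ' q₁) (h₂ : IsSL ρ' q₂) (hq : ∀ n, q₁ (g n) = q₂ (g n)) :
    q₁ = q₂ := by
  letI : Module R' Q := Module.compHom Q ρ'
  have hsm : ∀ (r' : R') (x : Q), r' • x = ρ' r' • x := fun _ _ => rfl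
  let l₁ : N' →ₗ[R'] Q :=
    { toFun := q₁, map_add' := q₁.map_add, map_smul' := fun r x => by
        simp only [RingHom.id_apply]; rw [h₁, hsm] }
  let l₂ : N' →ₗ[R'] Q :=
    { toFun := q₂, map_add' := q₂.map_add, map_smul' := fun r x => by
        simp only [RingHom.id_apply]; rw [h₂, hsm] }
  obtain ⟨c, -, hc⟩ := h.lift Q (q₂.comp g) (fun r n => by
    change q₂ (g (r • n)) = ρ r • q₂ (g n)
    rw [h.sl, h₂, hsm])
  have e₁ : l₁ = c := hc l₁ (fun n => hq n)
  have e₂ : l₂ = c := hc l₂ (fun _ => rfl)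
  ext x
  exact LinearMap.congr_fun (e₁.trans e₂.symm) x

/-- The semilinear lift out of a base change. -/
theorem isBC_exists_lift {ρ : R →+* R'} {g : N →+ N'} (h : IsBC ρ g) {ρ' : R' →+* R''}
    (q : N →+ Q) (hq : IsSL (ρ'.comp ρ) q) :
    ∃ q' : N' →+ Q, IsSL ρ' q' ∧ ∀ n, q' (g n) = q n := by
  letI : Module R' Q := Module.compHom Q ρ'
  have hsm : ∀ (r' : R') (x : Q), r' • x = ρ' r' • x := fun _ _ => rfl
  obtain ⟨c, hc, -⟩ := h.lift Q q (fun r n => by rw [hq, hsm]; rfl)
  exact ⟨c.toAddMonoidHom, fun r x => by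
    change c (r • x) = ρ' r • c x
    rw [c.map_smul, hsm], hc⟩

/-- Base change preserves invertibility. -/
theorem isBC_invertible {ρ : R →+* R'} {g : N →+ N'} (h : IsBC ρ g)
    [Module.Invertible R N] : Module.Invertible R' N' := by
  letI : Algebra R R' := ρ.toAlgebra
  letI : Module R N' := Module.compHom N' ρ
  haveI : IsScalarTower R R' N' := ⟨fun r r' n => by
    change (ρ r * r') • n = ρ r • (r' • n); rw [mul_smul]⟩
  let f : N →ₗ[R] N' :=
    { toFun := g, map_add' := g.map_add, map_smul' := fun r n => h.sl r n }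
  have hf : IsBaseChange R' f := IsBC.isBaseChange f h
  exact Module.Invertible.congr hf.equiv

end Basic

section Equiv

variable {R R' R₁ R₁' : Type u} [CommRing R] [CommRing R'] [CommRing R₁] [CommRing R₁']
  {N N' N₁ N₁' : Type u} [AddCommGroup N] [AddCommGroup N'] [AddCommGroup N₁]
  [AddCommGroup N₁'] [Module R N] [Module R' N'] [Module R₁ N₁] [Module R₁' N₁']

/-- Two base changes of isomorphic modules along compatible ring maps are isomorphic,
compatibly with the base-change maps. -/
theorem isBC_exists_equiv {ρ : R →+* R'} {g : N →+ N'} {ρ₁ : R₁ →+* R₁'} {g₁ : N₁ →+ N₁'}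
    (h : IsBC ρ g) (h₁ : IsBC ρ₁ g₁) (α : R ≃+* R₁) (β : R' ≃+* R₁') (a : N ≃+ N₁)
    (ha : IsSL (α : R →+* R₁) (a : N →+ N₁)) (hring : ∀ r, ρ₁ (α r) = β (ρ r)) :
    ∃ b : N' ≃+ N₁', IsSL (β : R' →+* R₁') (b : N' →+ N₁') ∧ ∀ n, b (g n) = g₁ (a n) := by
  have hα : ∀ r₁, (α : R →+* R₁) ((α.symm : R₁ →+* R) r₁) = r₁ := fun r₁ => α.apply_symm_apply r₁
  have ha' : IsSL (α.symm : R₁ →+* R) (a.symm : N₁ →+ N) := fun r₁ n₁ => by
    apply a.injective
    change a (a.symm (r₁ • n₁)) = a ((α.symm r₁) • a.symm n₁)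
    have := ha (α.symm r₁) (a.symm n₁)
    change a ((α.symm r₁) • a.symm n₁) = α (α.symm r₁) • a (a.symm n₁) at this
    rw [this, a.apply_symm_apply, a.apply_symm_apply, α.apply_symm_apply]
  -- forward map
  obtain ⟨b, hb, hbg⟩ := isBC_exists_lift h (ρ' := (β : R' →+* R₁')) (g₁.comp (a : N →+ N₁))
    (fun r n => by
      change g₁ (a (r • n)) = β (ρ r) • g₁ (a n)
      have := ha r n
      change a (r • n) = α r • a n at this
      rw [this, h₁.sl, hring])
  -- backward map
  obtain ⟨b', hb', hbg'⟩ := isBC_exists_lift h₁ (ρ' := (β.symm : R₁' →+* R'))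
    (g.comp (a.symm : N₁ →+ N))
    (fun r₁ n₁ => by
      change g (a.symm (r₁ • n₁)) = β.symm (ρ₁ r₁) • g (a.symm n₁)
      have := ha' r₁ n₁
      change a.symm (r₁ • n₁) = α.symm r₁ • a.symm n₁ at this
      rw [this, h.sl]
      congr 1
      apply β.injective
      rw [β.apply_symm_apply, ← hring, α.apply_symm_apply])
  have hbb' : ∀ x, b' (b x) = x := by
    have hsl : IsSL (RingHom.id R') (b'.comp b) := fun r x => by
      change b' (b (r • x)) = r • b' (b x)
      rw [hb, hb']
      change β.symm (β r) • _ = _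
      rw [β.symm_apply_apply]
    have hid : IsSL (RingHom.id R') (AddMonoidHom.id N') := fun r x => rfl
    have := isBC_ext h hsl hid (fun n => by
      change b' (b (g n)) = g n
      rw [hbg]
      change b' (g₁ (a n)) = g n
      rw [hbg']
      change g (a.symm (a n)) = g n
      rw [a.symm_apply_apply])
    exact fun x => DFunLike.congr_fun this x
  have hb'b : ∀ x, b (b' x) = x := by
    have hsl : IsSL (RingHom.id R₁') (b.comp b') := fun r x => by
      change b (b' (r • x)) = r • b (b' x)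
      rw [hb', hb]
      change β (β.symm r) • _ = _
      rw [β.apply_symm_apply]
    have hid : IsSL (RingHom.id R₁') (AddMonoidHom.id N₁') := fun r x => rfl
    have := isBC_ext h₁ hsl hid (fun n => by
      change b (b' (g₁ n)) = g₁ n
      rw [hbg']
      change b (g (a.symm n)) = g₁ n
      rw [hbg]
      change g₁ (a (a.symm n)) = g₁ n
      rw [a.apply_symm_apply])
    exact fun x => DFunLike.congr_fun this x
  exact ⟨{ toFun := b, invFun := b', left_inv := hbb', right_inv := hb'b,
           map_add' := b.map_add }, hb, hbg⟩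

end Equiv

section Frozen

variable {R R' : Type u} [CommRing R] [CommRing R']
  {N N' : Type u} [AddCommGroup N] [Module R N] [AddCommGroup N'] [Module R' N']

/-- From helper505's `IsBC` to the frozen `IsSemilinearBaseChange`. -/
theorem isSemilinearBaseChange_of_isBC (ρ : R →+* R') (b : N →ₛₗ[ρ] N')
    (h : IsBC ρ (b : N →ₛₗ[ρ] N').toAddMonoidHom) : IsSemilinearBaseChange ρ b := by
  unfold IsSemilinearBaseChange
  letI : Algebra R R' := ρ.toAlgebra
  letI : Module R N' := Module.compHom N' ρ
  haveI : IsScalarTower R R' N' := ⟨fun r r' n => by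
    change (ρ r * r') • n = ρ r • (r' • n); rw [mul_smul]⟩
  exact IsBC.isBaseChange (R := R) (R' := R') _ h

/-- From the frozen `IsSemilinearBaseChange` to helper505's `IsBC`. -/
theorem isBC_of_isSemilinearBaseChange (ρ : R →+* R') (b : N →ₛₗ[ρ] N')
    (h : IsSemilinearBaseChange ρ b) : IsBC ρ (b : N →ₛₗ[ρ] N').toAddMonoidHom := by
  unfold IsSemilinearBaseChange at h
  letI : Algebra R R' := ρ.toAlgebra
  letI : Module R N' := Module.compHom N' ρ
  haveI : IsScalarTower R R' N' := ⟨fun r r' n => by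
    change (ρ r * r') • n = ρ r • (r' • n); rw [mul_smul]⟩
  exact isBC_of_isBaseChange (R := R) (R' := R') _ h

end Frozen

end Fermat.Agent.S25.H386
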