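/-
S25, block DICT (helper386): the ring of functions on the preimage in `C_A` of an affine open
`U ⊆ C` is `A ⊗[k] Γ(C, U)`.

* `chartEquiv : A ⊗[k] B ≃+* Γ(C_A, fst⁻¹ U)` for `i : Γ(C, U) ≃+* B`, with
  `chartEquiv (a ⊗ₜ b) = baseToSections a * curveToSections (i.symm b)`.
-/
import Fermat.Agent.S25.DefsDict
import Fermat.Agent.S25.H205.Box

set_option autoImplicit false

open CategoryTheory CategoryTheory.Limits AlgebraicGeometry AlgebraicGeometry.RelPicard
  NeronModelInfra TopologicalSpace Opposite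
open scoped TensorProduct

universe u

namespace Fermat.Agent.S25.H386

section Chart

variable {k : Type u} [Field k] {C : Scheme.{u}} (c : C ⟶ Spec (CommRingCat.of k))
  (A : Type u) [CommRing A] [Algebra k A]

theorem isAffineOpen_preimageOpen {U : C.Opens} (hU : IsAffineOpen U) :
    IsAffineOpen (preimageOpen (c := c) A U) :=
  H205.isAffineOpen_fst_preimage c (specStr k A) hU

/-- The pushout square of `H205.isPushout_box` for an open equal to the box. -/
theorem isPushout_of_eq_box {U : C.Opens} (hU : IsAffineOpen U)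
    (W : (pullback c (specStr k A)).Opens) (hW : W = H205.box c (specStr k A) U ⊤) :
    IsPushout (c.appLE ⊤ U (by simp)) ((specStr k A).appLE ⊤ ⊤ (by simp))
      ((pullback.fst c (specStr k A)).appLE U W (hW ▸ H205.box_le_fst U ⊤))
      ((pullback.snd c (specStr k A)).appLE ⊤ W (hW ▸ H205.box_le_snd U ⊤)) := by
  subst hW
  exact H205.isPushout_box c (specStr k A) hU (isAffineOpen_top _)

variable {B : Type u} [CommRing B] [Algebra k B]

/-- The basic pushout square: `Γ(C_A, fst⁻¹ U)` is the pushout of `A` and `B ≅ Γ(C, U)`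
over `k`. -/
theorem isPushout_chart {U : C.Opens} (hU : IsAffineOpen U) (i : Γ(C, U) ≃+* B)
    (hi : ∀ a : k, i (sectionsStr c U a) = algebraMap k B a) :
    IsPushout (CommRingCat.ofHom (algebraMap k A)) (CommRingCat.ofHom (algebraMap k B))
      (CommRingCat.ofHom (baseToSections (c := c) A (preimageOpen (c := c) A U)))
      (CommRingCat.ofHom ((curveToSections (c := c) A U).comp (i.symm : B →+* Γ(C, U)))) := by
  have H := (isPushout_of_eq_box c A hU (preimageOpen (c := c) A U)
    (H205.box_top_right U).symm).flip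
  refine H.of_iso (Scheme.ΓSpecIso (CommRingCat.of k)) (Scheme.ΓSpecIso (CommRingCat.of A))
    i.toCommRingCatIso (Iso.refl _) ?_ ?_ ?_ ?_
  · -- structure map of `A`
    have : (specStr k A).appLE ⊤ ⊤ (by simp) = (specStr k A).appTop :=
      Scheme.Hom.appLE_eq_app _
    rw [this]
    exact Scheme.ΓSpecIso_naturality (CommRingCat.ofHom (algebraMap k A))
  · -- structure map of `B`
    ext a
    obtain ⟨a, rfl⟩ : ∃ a' : k, (Scheme.ΓSpecIso (CommRingCat.of k)).inv a' = a :=
      ⟨(Scheme.ΓSpecIso (CommRingCat.of k)).hom a, by simp⟩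
    have h1 := hi a
    simp only [CommRingCat.hom_comp, RingHom.comp_apply, CommRingCat.hom_ofHom,
      RingEquiv.toCommRingCatIso_hom]
    have h2 : (Scheme.ΓSpecIso (CommRingCat.of k)).hom.hom
        ((Scheme.ΓSpecIso (CommRingCat.of k)).inv.hom a) = a := by
      simp
    rw [h2]
    exact h1
  · -- `A → Γ(C_A, fst⁻¹ U)`
    rw [Iso.refl_hom, Category.comp_id]
    have : CommRingCat.ofHom (baseToSections (c := c) A (preimageOpen (c := c) A U)) =
        (Scheme.ΓSpecIso (CommRingCat.of A)).inv ≫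
          (pullback.snd c (specStr k A)).appLE ⊤ (preimageOpen (c := c) A U) (by simp) := rfl
    rw [this, Iso.hom_inv_id_assoc]
  · -- `B → Γ(C_A, fst⁻¹ U)`
    rw [Iso.refl_hom, Category.comp_id]
    have h1 : (pullback.fst c (specStr k A)).appLE U (preimageOpen (c := c) A U) le_rfl =
        (pullback.fst c (specStr k A)).app U := Scheme.Hom.appLE_eq_app _
    ext b
    simp only [CommRingCat.hom_comp, RingHom.comp_apply, CommRingCat.hom_ofHom,
      RingEquiv.toCommRingCatIso_hom]
    have h2 : (i.symm : B →+* Γ(C, U)) (i b) = b := i.symm_apply_apply b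
    erw [h2]
    rw [h1]
    rfl

/-- The ring isomorphism `A ⊗[k] B ≃+* Γ(C_A, fst⁻¹ U)`. -/
noncomputable def chartEquiv {U : C.Opens} (hU : IsAffineOpen U) (i : Γ(C, U) ≃+* B)
    (hi : ∀ a : k, i (sectionsStr c U a) = algebraMap k B a) :
    A ⊗[k] B ≃+* Γ(pullback c (specStr k A), preimageOpen (c := c) A U) :=
  ((CommRingCat.isPushout_tensorProduct k A B).isoIsPushout _ _
    (isPushout_chart c A hU i hi)).commRingCatIsoToRingEquiv

theorem chartEquiv_tmul_one {U : C.Opens} (hU : IsAffineOpen U) (i : Γ(C, U) ≃+* B)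
    (hi : ∀ a : k, i (sectionsStr c U a) = algebraMap k B a) (a : A) :
    chartEquiv c A hU i hi (a ⊗ₜ[k] (1 : B)) =
      baseToSections (c := c) A (preimageOpen (c := c) A U) a := by
  have h := IsPushout.inl_isoIsPushout_hom _ _ (CommRingCat.isPushout_tensorProduct k A B)
    (isPushout_chart c A hU i hi)
  exact congr($(h).hom a)

theorem chartEquiv_one_tmul {U : C.Opens} (hU : IsAffineOpen U) (i : Γ(C, U) ≃+* B)
    (hi : ∀ a : k, i (sectionsStr c U a) = algebraMap k B a) (b : B) :
    chartEquiv c A hU i hi ((1 : A) ⊗ₜ[k] b) =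
      curveToSections (c := c) A U (i.symm b) := by
  have h := IsPushout.inr_isoIsPushout_hom _ _ (CommRingCat.isPushout_tensorProduct k A B)
    (isPushout_chart c A hU i hi)
  exact congr($(h).hom b)

theorem chartEquiv_tmul {U : C.Opens} (hU : IsAffineOpen U) (i : Γ(C, U) ≃+* B)
    (hi : ∀ a : k, i (sectionsStr c U a) = algebraMap k B a) (a : A) (b : B) :
    chartEquiv c A hU i hi (a ⊗ₜ[k] b) =
      baseToSections (c := c) A (preimageOpen (c := c) A U) a *
        curveToSections (c := c) A U (i.symm b) := by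
  have : a ⊗ₜ[k] b = (a ⊗ₜ[k] (1 : B)) * ((1 : A) ⊗ₜ[k] b) := by
    rw [Algebra.TensorProduct.tmul_mul_tmul, mul_one, one_mul]
  rw [this, map_mul, chartEquiv_tmul_one, chartEquiv_one_tmul]

/-- Two ring homomorphisms out of `A ⊗[k] B` agreeing on `a ⊗ 1` and `1 ⊗ b` are equal. -/
theorem tensor_ringHom_ext {S : Type u} [CommRing S] {f g : A ⊗[k] B →+* S}
    (h₁ : ∀ a : A, f (a ⊗ₜ[k] (1 : B)) = g (a ⊗ₜ[k] (1 : B)))
    (h₂ : ∀ b : B, f ((1 : A) ⊗ₜ[k] b) = g ((1 : A) ⊗ₜ[k] b)) : f = g := by
  refine RingHom.ext fun x => ?_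
  induction x using TensorProduct.induction_on with
  | zero => simp
  | tmul a b =>
    have : a ⊗ₜ[k] b = (a ⊗ₜ[k] (1 : B)) * ((1 : A) ⊗ₜ[k] b) := by
      rw [Algebra.TensorProduct.tmul_mul_tmul, mul_one, one_mul]
    rw [this, map_mul, map_mul, h₁, h₂]
  | add x y hx hy => rw [map_add, map_add, hx, hy]

end Chart

end Fermat.Agent.S25.H386
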