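/-
S25, block DICT (helper386): compatibilities of `chartEquiv : A ⊗[k] B ≃+* Γ(C_A, fst⁻¹ U)`
with restriction to a smaller affine open, with base change `A → A'` and with the
rigidifying section.
-/
import Fermat.Agent.S25.H386.ChartRing

set_option autoImplicit false

open CategoryTheory CategoryTheory.Limits AlgebraicGeometry AlgebraicGeometry.RelPicard
  NeronModelInfra TopologicalSpace Opposite
open scoped TensorProduct

universe u

namespace Fermat.Agent.S25.H386

section Compat

variable {k : Type u} [Field k] {C : Scheme.{u}} (c : C ⟶ Spec (CommRingCat.of k))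
  (A : Type u) [CommRing A] [Algebra k A]

theorem baseToSections_eq_appLE (V : (pullback c (specStr k A)).Opens) :
    CommRingCat.ofHom (baseToSections (c := c) A V) =
      (Scheme.ΓSpecIso (CommRingCat.of A)).inv ≫
        (pullback.snd c (specStr k A)).appLE ⊤ V (by simp) := rfl

theorem curveToSections_eq_appLE (U : C.Opens) :
    CommRingCat.ofHom (curveToSections (c := c) A U) =
      (pullback.fst c (specStr k A)).appLE U (preimageOpen (c := c) A U) le_rfl := by
  rw [Scheme.Hom.appLE_eq_app]
  rfl

/-- restriction of `baseToSections` -/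
theorem res_baseToSections {V V' : (pullback c (specStr k A)).Opens} (h : V' ≤ V) (a : A) :
    resRing h (baseToSections (c := c) A V a) = baseToSections (c := c) A V' a := by
  have h1 : CommRingCat.ofHom (baseToSections (c := c) A V) ≫
      (pullback c (specStr k A)).presheaf.map (homOfLE h).op =
      CommRingCat.ofHom (baseToSections (c := c) A V') := by
    rw [baseToSections_eq_appLE, baseToSections_eq_appLE, Category.assoc,
      Scheme.Hom.appLE_map]
  exact congr($(h1).hom a)

/-- restriction of `curveToSections` -/
theorem res_curveToSections {U U' : C.Opens} (h : U' ≤ U) (f : Γ(C, U)) :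
    resRing (show preimageOpen (c := c) A U' ≤ preimageOpen (c := c) A U from
        Scheme.Hom.preimage_mono _ h) (curveToSections (c := c) A U f) =
      curveToSections (c := c) A U' (resRing h f) := by
  have h1 : CommRingCat.ofHom (curveToSections (c := c) A U) ≫
      (pullback c (specStr k A)).presheaf.map (homOfLE (show preimageOpen (c := c) A U' ≤
        preimageOpen (c := c) A U from Scheme.Hom.preimage_mono _ h)).op =
      C.presheaf.map (homOfLE h).op ≫ CommRingCat.ofHom (curveToSections (c := c) A U') := by
    rw [curveToSections_eq_appLE, curveToSections_eq_appLE, Scheme.Hom.appLE_map,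
      Scheme.Hom.map_appLE]
  exact congr($(h1).hom f)

variable {B B' : Type u} [CommRing B] [Algebra k B] [CommRing B'] [Algebra k B']
  [Algebra B B'] [IsScalarTower k B B']

/-- **Restriction.** `chartEquiv` is compatible with restriction to a smaller affine open. -/
theorem res_chartEquiv {U U' : C.Opens} (hU : IsAffineOpen U) (hU' : IsAffineOpen U')
    (h : U' ≤ U) (i : Γ(C, U) ≃+* B) (hi : ∀ a : k, i (sectionsStr c U a) = algebraMap k B a)
    (i' : Γ(C, U') ≃+* B') (hi' : ∀ a : k, i' (sectionsStr c U' a) = algebraMap k B' a)
    (hres : ∀ f : Γ(C, U), i' (resRing h f) = algebraMap B B' (i f)) (r : A ⊗[k] B) :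
    resRing (show preimageOpen (c := c) A U' ≤ preimageOpen (c := c) A U from
        Scheme.Hom.preimage_mono _ h) (chartEquiv c A hU i hi r) =
      chartEquiv c A hU' i' hi' (tensorMapRight k A B B' r) := by
  have key : (resRing (show preimageOpen (c := c) A U' ≤ preimageOpen (c := c) A U from
        Scheme.Hom.preimage_mono _ h)).comp (chartEquiv c A hU i hi : A ⊗[k] B →+* _) =
      (chartEquiv c A hU' i' hi' : A ⊗[k] B' →+* _).comp
        (tensorMapRight k A B B' : A ⊗[k] B →+* A ⊗[k] B') := by
    apply tensor_ringHom_ext
    · intro a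
      simp only [RingHom.comp_apply, RingHom.coe_coe]
      rw [chartEquiv_tmul_one, res_baseToSections]
      simp only [tensorMapRight, Algebra.TensorProduct.map_tmul, AlgHom.coe_id, id_eq, map_one]
      rw [chartEquiv_tmul_one]
    · intro b
      simp only [RingHom.comp_apply, RingHom.coe_coe]
      rw [chartEquiv_one_tmul, res_curveToSections]
      simp only [tensorMapRight, Algebra.TensorProduct.map_tmul, AlgHom.coe_id, id_eq,
        IsScalarTower.coe_toAlgHom']
      rw [chartEquiv_one_tmul]
      congr 1
      · apply i'.injective
        rw [hres, i.apply_symm_apply, i'.apply_symm_apply]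
      · exact h
  exact congr($key r)

section BaseChange

variable {A} {A' : Type u} [CommRing A'] [Algebra k A'] (φ : A →ₐ[k] A')

theorem preimageOpen_le_baseChangeSnd (U : C.Opens) :
    preimageOpen (c := c) A' U ≤
      (baseChangeSnd c (specHomOver k φ)) ⁻¹ᵁ (preimageOpen (c := c) A U) := by
  change _ ≤ (baseChangeSnd c (specHomOver k φ)) ⁻¹ᵁ ((pullback.fst c (specStr k A)) ⁻¹ᵁ U)
  rw [← Scheme.Hom.comp_preimage, H205.baseChangeSnd_fst]

/-- **Base change.** `chartEquiv` is compatible with `A → A'`. -/
theorem baseChangeSnd_appLE_chartEquiv {U : C.Opens} (hU : IsAffineOpen U) (i : Γ(C, U) ≃+* B)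
    (hi : ∀ a : k, i (sectionsStr c U a) = algebraMap k B a) (r : A ⊗[k] B) :
    (baseChangeSnd c (specHomOver k φ)).appLE (preimageOpen (c := c) A U)
        (preimageOpen (c := c) A' U) (preimageOpen_le_baseChangeSnd c φ U)
        (chartEquiv c A hU i hi r) =
      chartEquiv c A' hU i hi (tensorMapLeft k φ B r) := by
  have key : ((baseChangeSnd c (specHomOver k φ)).appLE (preimageOpen (c := c) A U)
        (preimageOpen (c := c) A' U) (preimageOpen_le_baseChangeSnd c φ U)).hom.comp
        (chartEquiv c A hU i hi : A ⊗[k] B →+* _) =
      (chartEquiv c A' hU i hi : A' ⊗[k] B →+* _).comp (tensorMapLeft k φ B) := by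
    apply tensor_ringHom_ext
    · intro a
      simp only [RingHom.comp_apply, RingHom.coe_coe]
      rw [chartEquiv_tmul_one]
      simp only [tensorMapLeft, AlgHom.toRingHom_eq_coe, RingHom.coe_coe,
        Algebra.TensorProduct.map_tmul, map_one]
      rw [chartEquiv_tmul_one]
      have h1 : CommRingCat.ofHom (baseToSections (c := c) A (preimageOpen (c := c) A U)) ≫
          (baseChangeSnd c (specHomOver k φ)).appLE (preimageOpen (c := c) A U)
            (preimageOpen (c := c) A' U) (preimageOpen_le_baseChangeSnd c φ U) =
          CommRingCat.ofHom φ.toRingHom ≫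
            CommRingCat.ofHom (baseToSections (c := c) A' (preimageOpen (c := c) A' U)) := by
        rw [baseToSections_eq_appLE, baseToSections_eq_appLE, Category.assoc,
          Scheme.Hom.appLE_comp_appLE,
          H205.appLE_congr_hom (H205.baseChangeSnd_snd c (specHomOver k φ)),
          ← Scheme.Hom.appLE_comp_appLE _ _ ⊤ ⊤ _ (by simp) (by simp), ← Category.assoc,
          ← Category.assoc]
        congr 1
        have h2 : (specHomOver k φ).1.appLE ⊤ ⊤ (by simp) =
            (Spec.map (CommRingCat.ofHom φ.toRingHom)).appTop := Scheme.Hom.appLE_eq_app _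
        rw [h2, Iso.inv_comp_eq, ← Category.assoc, Iso.eq_comp_inv]
        exact Scheme.ΓSpecIso_naturality (CommRingCat.ofHom φ.toRingHom)
      exact congr($(h1).hom a)
    · intro b
      simp only [RingHom.comp_apply, RingHom.coe_coe]
      rw [chartEquiv_one_tmul]
      simp only [tensorMapLeft, AlgHom.toRingHom_eq_coe, RingHom.coe_coe,
        Algebra.TensorProduct.map_tmul, map_one, AlgHom.coe_id, id_eq]
      rw [chartEquiv_one_tmul]
      have h1 : CommRingCat.ofHom (curveToSections (c := c) A U) ≫
          (baseChangeSnd c (specHomOver k φ)).appLE (preimageOpen (c := c) A U)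
            (preimageOpen (c := c) A' U) (preimageOpen_le_baseChangeSnd c φ U) =
          CommRingCat.ofHom (curveToSections (c := c) A' U) := by
        rw [curveToSections_eq_appLE, curveToSections_eq_appLE, Scheme.Hom.appLE_comp_appLE]
        exact H205.appLE_congr_hom (H205.baseChangeSnd_fst c (specHomOver k φ)) _ _ _
      exact congr($(h1).hom (i.symm b))
  exact congr($key r)

end BaseChange

end Compat

end Fermat.Agent.S25.H386
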