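/-
S25, block DICT (helper386): compatibility of `chartEquiv` on the chart `U₁` with the
rigidifying section: `σ^♯ ∘ chartEquiv = epsHom e A` (up to `Γ(Spec A, ⊤) ≅ A`).
-/
import Fermat.Agent.S25.H386.ChartCompat

set_option autoImplicit false

open CategoryTheory CategoryTheory.Limits AlgebraicGeometry AlgebraicGeometry.RelPicard
  NeronModelInfra TopologicalSpace Opposite
open scoped TensorProduct

universe u

namespace Fermat.Agent.S25.H386

section Rig

variable {k : Type u} [Field k] {C : Scheme.{u}} {c : C ⟶ Spec (CommRingCat.of k)}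
  {ε : SchemeHomOver (𝟙 (Spec (CommRingCat.of k))) c} (Ch : ChartOf c ε)
  (A : Type u) [CommRing A] [Algebra k A]

theorem top_le_rigSection_preimage :
    (⊤ : (Spec (CommRingCat.of A)).Opens) ≤
      (rigSection c (specStr k A) ε) ⁻¹ᵁ (preimageOpen (c := c) A Ch.U₁) := by
  change _ ≤ (rigSection c (specStr k A) ε) ⁻¹ᵁ ((pullback.fst c (specStr k A)) ⁻¹ᵁ Ch.U₁)
  rw [← Scheme.Hom.comp_preimage, H205.rigSection_fst, Scheme.Hom.comp_preimage, Ch.eps_mem]
  exact le_rfl

/-- The ring map `Γ(C_A, fst⁻¹ U₁) → A` induced by the rigidifying section. -/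
noncomputable def rigRingHom :
    Γ(pullback c (specStr k A), preimageOpen (c := c) A Ch.U₁) →+* A :=
  ((rigSection c (specStr k A) ε).appLE (preimageOpen (c := c) A Ch.U₁) ⊤
    (top_le_rigSection_preimage Ch A) ≫ (Scheme.ΓSpecIso (CommRingCat.of A)).hom).hom

theorem rigRingHom_baseToSections (a : A) :
    rigRingHom Ch A (baseToSections (c := c) A (preimageOpen (c := c) A Ch.U₁) a) = a := by
  have h1 : CommRingCat.ofHom (baseToSections (c := c) A (preimageOpen (c := c) A Ch.U₁)) ≫
      (rigSection c (specStr k A) ε).appLE (preimageOpen (c := c) A Ch.U₁) ⊤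
        (top_le_rigSection_preimage Ch A) ≫ (Scheme.ΓSpecIso (CommRingCat.of A)).hom = 𝟙 _ := by
    rw [baseToSections_eq_appLE, Category.assoc, Scheme.Hom.appLE_comp_appLE_assoc,
      H205.appLE_congr_hom (H205.rigSection_snd c (specStr k A) ε)]
    have : ∀ (h : (⊤ : (Spec (CommRingCat.of A)).Opens) ≤ (𝟙 (Spec (CommRingCat.of A))) ⁻¹ᵁ ⊤),
        Scheme.Hom.appLE (𝟙 (Spec (CommRingCat.of A))) ⊤ ⊤ h = 𝟙 _ := by
      intro h
      simp only [Scheme.Hom.appLE, Scheme.Hom.id_app]
      exact (Category.id_comp _).trans ((Spec (CommRingCat.of A)).presheaf.map_id _)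
    rw [this, Category.id_comp, Iso.inv_hom_id]
  exact congr($(h1).hom a)

theorem rigRingHom_curveToSections (f : Γ(C, Ch.U₁)) :
    rigRingHom Ch A (curveToSections (c := c) A Ch.U₁ f) =
      algebraMap k A (evalAt c ε Ch.U₁ Ch.eps_mem f) := by
  have h1 : CommRingCat.ofHom (curveToSections (c := c) A Ch.U₁) ≫
      (rigSection c (specStr k A) ε).appLE (preimageOpen (c := c) A Ch.U₁) ⊤
        (top_le_rigSection_preimage Ch A) ≫ (Scheme.ΓSpecIso (CommRingCat.of A)).hom =
      CommRingCat.ofHom (evalAt c ε Ch.U₁ Ch.eps_mem) ≫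
        CommRingCat.ofHom (algebraMap k A) := by
    rw [curveToSections_eq_appLE, Scheme.Hom.appLE_comp_appLE_assoc,
      H205.appLE_congr_hom (H205.rigSection_fst c (specStr k A) ε),
      ← Scheme.Hom.appLE_comp_appLE (specStr k A) ε.1 Ch.U₁ ⊤ ⊤
        (le_of_eq Ch.eps_mem.symm) (by simp), Category.assoc]
    have h2 : (specStr k A).appLE ⊤ ⊤ (by simp) = (specStr k A).appTop :=
      Scheme.Hom.appLE_eq_app _
    rw [h2]
    have h3 := Scheme.ΓSpecIso_naturality (CommRingCat.ofHom (algebraMap k A))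
    change (specStr k A).appTop ≫ _ = _ at h3
    rw [h3, ← Category.assoc]
    rfl
  exact congr($(h1).hom f)

/-- **Rigidification.** Under `chartEquiv`, the rigidifying section is `epsHom e A`. -/
theorem rigRingHom_chartEquiv (r : A ⊗[k] Ch.B₁) :
    rigRingHom Ch A (chartEquiv c A Ch.isAffine₁ Ch.i₁ Ch.i₁_str r) = epsHom Ch.e A r := by
  have key : (rigRingHom Ch A).comp
      (chartEquiv c A Ch.isAffine₁ Ch.i₁ Ch.i₁_str : A ⊗[k] Ch.B₁ →+* _) =
      (epsHom Ch.e A : A ⊗[k] Ch.B₁ →+* A) := by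
    apply tensor_ringHom_ext
    · intro a
      simp only [RingHom.comp_apply, RingHom.coe_coe]
      rw [chartEquiv_tmul_one, rigRingHom_baseToSections]
      simp [epsHom]
    · intro b
      simp only [RingHom.comp_apply, RingHom.coe_coe]
      rw [chartEquiv_one_tmul, rigRingHom_curveToSections, ← Ch.e_eq, Ch.i₁.apply_symm_apply]
      simp [epsHom, Algebra.ofId_apply]
  exact congr($key r)

end Rig

end Fermat.Agent.S25.H386
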