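/-
S25, block DICT (helper386): construction of a gluing datum (frozen `GlueDatum`) from modules
over rings `S₀, S₁, S₀₁` identified with `R₀, R₁, R₀₁` by ring isomorphisms (pure algebra).
-/
import Fermat.Agent.S25.H386.BCAlg

set_option autoImplicit false

universe u

namespace Fermat.Agent.S25.H386

open TensorProduct Fermat.Agent.S25.H505

section CompHom

variable {R R' S S' : Type u} [CommRing R] [CommRing R'] [CommRing S] [CommRing S']
  {N N' : Type u} [AddCommGroup N] [AddCommGroup N'] [Module S N] [Module S' N']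

/-- Transport of a base change to module structures pulled back along ring isomorphisms. -/
theorem isBC_compHom {ρ : S →+* S'} {g : N →+ N'} (h : IsBC ρ g) (θ : R ≃+* S) (θ' : R' ≃+* S')
    (ρ' : R →+* R') (hρ : ∀ r, ρ (θ r) = θ' (ρ' r)) :
    letI : Module R N := Module.compHom N θ.toRingHom
    letI : Module R' N' := Module.compHom N' θ'.toRingHom
    IsBC ρ' g := by
  letI : Module R N := Module.compHom N θ.toRingHom
  letI : Module R' N' := Module.compHom N' θ'.toRingHom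
  refine IsBC.of_square' (α := θ.toRingHom) (β := θ'.toRingHom) (a := AddMonoidHom.id N)
    (b := AddMonoidHom.id N') h ?_ (fun _ _ => rfl) (fun _ _ => rfl) θ.bijective θ'.bijective
    Function.bijective_id Function.bijective_id hρ (fun _ => rfl)
  intro r n
  change g (θ r • n) = θ' (ρ' r) • g n
  rw [h.sl, hρ]

/-- Transport of a base change with target the ring `R'` itself. -/
theorem isBC_compHom_left {ρ : S →+* R'} {g : N →+ R'} (h : IsBC ρ g) (θ : R ≃+* S)
    (ρ' : R →+* R') (hρ : ∀ r, ρ (θ r) = ρ' r) :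
    letI : Module R N := Module.compHom N θ.toRingHom
    IsBC ρ' g := by
  letI : Module R N := Module.compHom N θ.toRingHom
  refine IsBC.of_square' (α := θ.toRingHom) (β := RingHom.id R') (a := AddMonoidHom.id N)
    (b := AddMonoidHom.id R') h ?_ (fun _ _ => rfl) (fun _ _ => rfl) θ.bijective
    Function.bijective_id Function.bijective_id Function.bijective_id hρ (fun _ => rfl)
  intro r n
  change g (θ r • n) = ρ' r • g n
  rw [h.sl, hρ]

/-- Invertibility for the module structure pulled back along a ring isomorphism. -/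
theorem invertible_compHom (θ : R ≃+* S) [Module.Invertible S N] :
    letI : Module R N := Module.compHom N θ.toRingHom
    Module.Invertible R N := by
  letI : Module R N := Module.compHom N θ.toRingHom
  have h : IsBC θ.symm.toRingHom (AddMonoidHom.id N) :=
    isBC_of_bijective (fun s n => by
      change s • n = θ (θ.symm s) • n
      rw [θ.apply_symm_apply]) θ.symm.bijective Function.bijective_id
  exact isBC_invertible h

end CompHom

section Build

variable {A R₀ R₁ R₀₁ : Type u} [CommRing A] [CommRing R₀] [CommRing R₁]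
  [CommRing R₀₁] [Algebra A R₀] [Algebra A R₁] [Algebra A R₀₁] [Algebra R₀ R₀₁]
  [Algebra R₁ R₀₁] [IsScalarTower A R₀ R₀₁] [IsScalarTower A R₁ R₀₁]
  {S₀ S₁ S₀₁ : Type u} [CommRing S₀] [CommRing S₁] [CommRing S₀₁]
  (θ₀ : R₀ ≃+* S₀) (θ₁ : R₁ ≃+* S₁) (θ₀₁ : R₀₁ ≃+* S₀₁)
  {ρ₀ : S₀ →+* S₀₁} {ρ₁ : S₁ →+* S₀₁}
  (hρ₀ : ∀ r, ρ₀ (θ₀ r) = θ₀₁ (algebraMap R₀ R₀₁ r))
  (hρ₁ : ∀ r, ρ₁ (θ₁ r) = θ₀₁ (algebraMap R₁ R₀₁ r))
  {N₀ N₁ N₀₁ : Type u} [AddCommGroup N₀] [AddCommGroup N₁] [AddCommGroup N₀₁]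
  [Module S₀ N₀] [Module S₁ N₁] [Module S₀₁ N₀₁]
  {r₀ : N₀ →+ N₀₁} {r₁ : N₁ →+ N₀₁} (h₀ : IsBC ρ₀ r₀) (h₁ : IsBC ρ₁ r₁)
  (inv₀ : Module.Invertible S₀ N₀) (inv₁ : Module.Invertible S₁ N₁)

/-- The gluing datum with modules `N₀, N₁, N₀₁` (modules over `S₀, S₁, S₀₁`), viewed over
`R₀, R₁, R₀₁` through the ring isomorphisms `θ₀, θ₁, θ₀₁`. -/
noncomputable def glueDatumOfSections : GlueDatum A R₀ R₁ R₀₁ :=
  letI m₀ : Module R₀ N₀ := Module.compHom N₀ θ₀.toRingHom
  letI m₁ : Module R₁ N₁ := Module.compHom N₁ θ₁.toRingHom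
  letI m₀₁ : Module R₀₁ N₀₁ := Module.compHom N₀₁ θ₀₁.toRingHom
  letI mL : Module R₀ N₀₁ := Module.compHom N₀₁ (algebraMap R₀ R₀₁)
  letI mR : Module R₁ N₀₁ := Module.compHom N₀₁ (algebraMap R₁ R₀₁)
  letI b₀ : Module A N₀ := Module.compHom N₀ (algebraMap A R₀)
  letI b₁ : Module A N₁ := Module.compHom N₁ (algebraMap A R₁)
  letI b₀₁ : Module A N₀₁ := Module.compHom N₀₁ (algebraMap A R₀₁)
  haveI tL : IsScalarTower R₀ R₀₁ N₀₁ := ⟨fun r r' n => by
    change (r • r') • n = algebraMap R₀ R₀₁ r • (r' • n); rw [Algebra.smul_def, mul_smul]⟩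
  haveI tR : IsScalarTower R₁ R₀₁ N₀₁ := ⟨fun r r' n => by
    change (r • r') • n = algebraMap R₁ R₀₁ r • (r' • n); rw [Algebra.smul_def, mul_smul]⟩
  haveI t₀ : IsScalarTower A R₀ N₀ := ⟨fun a r n => by
    change (a • r) • n = algebraMap A R₀ a • (r • n); rw [Algebra.smul_def, mul_smul]⟩
  haveI t₁ : IsScalarTower A R₁ N₁ := ⟨fun a r n => by
    change (a • r) • n = algebraMap A R₁ a • (r • n); rw [Algebra.smul_def, mul_smul]⟩
  haveI t₀₁ : IsScalarTower A R₀₁ N₀₁ := ⟨fun a r n => by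
    change (a • r) • n = algebraMap A R₀₁ a • (r • n); rw [Algebra.smul_def, mul_smul]⟩
  have hb₀ : IsBC (algebraMap R₀ R₀₁) r₀ := isBC_compHom h₀ θ₀ θ₀₁ (algebraMap R₀ R₀₁) hρ₀
  have hb₁ : IsBC (algebraMap R₁ R₀₁) r₁ := isBC_compHom h₁ θ₁ θ₀₁ (algebraMap R₁ R₀₁) hρ₁
  { N₀ := N₀
    N₁ := N₁
    N₀₁ := N₀₁
    module₀ := m₀
    module₁ := m₁
    module₀₁ := m₀₁
    moduleL := mL
    moduleR := mR
    towerL := tL
    towerR := tR
    baseModule₀ := b₀
    baseModule₁ := b₁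
    baseModule₀₁ := b₀₁
    baseTower₀ := t₀
    baseTower₁ := t₁
    baseTower₀₁ := t₀₁
    r₀ := { toFun := r₀, map_add' := r₀.map_add, map_smul' := fun r n => hb₀.sl r n }
    r₁ := { toFun := r₁, map_add' := r₁.map_add, map_smul' := fun r n => hb₁.sl r n }
    isBaseChange₀ := IsBC.isBaseChange (R := R₀) (R' := R₀₁) _ hb₀
    isBaseChange₁ := IsBC.isBaseChange (R := R₁) (R' := R₀₁) _ hb₁
    invertible₀ := invertible_compHom θ₀
    invertible₁ := invertible_compHom θ₁ }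

end Build

end Fermat.Agent.S25.H386
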