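/-
S25, block DICT (helper386): sections of a quasi-coherent / invertible module over affine opens.

* `res_isBC`: for affine opens `V ≤ U` and `M` quasi-coherent, the restriction
  `Γ(M, U) → Γ(M, V)` is a base change along `Γ(X, U) → Γ(X, V)`.
* `invertible_sections`: for `M` invertible and `U` affine, `Γ(M, U)` is an invertible
  `Γ(X, U)`-module.
-/
import Fermat.Agent.S25.DefsDict
import Fermat.Agent.S25.H505.SectionBC
import Fermat.Agent.S25.H445.InvertibleAffine
import Fermat.Agent.S25.H386.BCAlg

set_option autoImplicit false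

open CategoryTheory CategoryTheory.Limits AlgebraicGeometry TopologicalSpace Opposite
open Fermat.Agent.S25.H505

universe u

namespace Fermat.Agent.S25.H386

section Res

variable {X Y : Scheme.{u}}

/-- For an open immersion `j`, restriction from an affine open `U` to the image of an affine
open `V ≤ j ⁻¹ᵁ U` is a base change. -/
theorem res_isBC_of_openImmersion (j : Y ⟶ X) [IsOpenImmersion j] (M : X.Modules)
    [M.IsQuasicoherent] {U : X.Opens} (hU : IsAffineOpen U) {V : Y.Opens}
    (hV : IsAffineOpen V) (h : V ≤ j ⁻¹ᵁ U) (W : X.Opens) (hW : W = j ''ᵁ V) (hWU : W ≤ U) :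
    IsBC (X.presheaf.map (homOfLE hWU).op).hom (M.presheaf.map (homOfLE hWU).op).hom := by
  subst hW
  have hB := secMap_isBC j M hU hV h
  let Θ := (Scheme.Modules.restrictFunctorIsoPullback j).app M
  refine hB.of_square (α := RingHom.id _) (β := (j.appIso V).inv.hom)
    (a := AddMonoidHom.id _)
    (b := ((M.restrictAppIso j V).hom.hom).comp (Θ.inv.app V).hom) ?_ ?_ ?_ ?_ ?_ ?_ ?_ ?_ ?_
  · intro r s
    exact Scheme.Modules.map_smul M (homOfLE hWU) r s
  · intro r s
    rfl
  · intro r s
    change (M.restrictAppIso j V).hom ((Θ.inv.app V) (r • s)) =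
      (j.appIso V).inv r • (M.restrictAppIso j V).hom ((Θ.inv.app V) s)
    rw [Scheme.Modules.Hom.app_smul]
    rfl
  · exact Function.bijective_id
  · exact ConcreteCategory.bijective_of_isIso (j.appIso V).inv
  · exact Function.bijective_id
  · exact (ConcreteCategory.bijective_of_isIso (M.restrictAppIso j V).hom).comp
      (ConcreteCategory.bijective_of_isIso (Θ.inv.app V))
  · intro r
    have := Scheme.Hom.appLE_appIso_inv j h
    exact congr($(this).hom r).symm
  · intro s
    change M.presheaf.map (homOfLE hWU).op s =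
      (M.restrictAppIso j V).hom ((Θ.inv.app V) (secMap j M h s))
    rw [secMap_openImmersion]
    have h1 : ∀ x, (Θ.inv.app V) ((Θ.hom.app V) x) = x := fun x => by
      have : Θ.hom.app V ≫ Θ.inv.app V = 𝟙 _ := by
        rw [← Scheme.Modules.Hom.comp_app, Iso.hom_inv_id]; rfl
      exact congr($this x)
    change _ = (M.restrictAppIso j V).hom ((Θ.inv.app V) ((Θ.hom.app V) _))
    rw [h1]
    rfl

/-- **Restriction is a base change.** For affine opens `V ≤ U` and `M` quasi-coherent, the
restriction `Γ(M, U) → Γ(M, V)` is a base change along `Γ(X, U) → Γ(X, V)`. -/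
theorem res_isBC (M : X.Modules) [M.IsQuasicoherent] {U V : X.Opens} (hU : IsAffineOpen U)
    (hV : IsAffineOpen V) (h : V ≤ U) : IsBC (resRing h) (resMod M h) :=
  res_isBC_of_openImmersion (𝟙 X) M hU hV h V (Scheme.Hom.id_image V).symm h

end Res

section Invertible

variable {X : Scheme.{u}}

theorem fromSpec_appLE_top {U : X.Opens} (hU : IsAffineOpen U)
    (h : (⊤ : (Spec Γ(X, U)).Opens) ≤ hU.fromSpec ⁻¹ᵁ U) :
    hU.fromSpec.appLE U ⊤ h = (Scheme.ΓSpecIso Γ(X, U)).inv := by
  rw [Scheme.Hom.appLE, hU.fromSpec_app_self, Category.assoc, ← Functor.map_comp]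
  have key : ∀ (q : (op ⊤ : (Spec Γ(X, U)).Opensᵒᵖ) ⟶ op ⊤),
      (Spec Γ(X, U)).presheaf.map q = 𝟙 _ := fun q => by
    have : q = 𝟙 _ := Subsingleton.elim _ _
    rw [this, CategoryTheory.Functor.map_id]
  rw [key, Category.comp_id]

/-- For an invertible module `M` and an affine open `U`, `Γ(M, U)` is an invertible
`Γ(X, U)`-module. -/
theorem invertible_sections (M : X.Modules) (hM : Scheme.Modules.IsInvertible M)
    {U : X.Opens} (hU : IsAffineOpen U) : Module.Invertible Γ(X, U) Γ(M, U) := by
  have hle : (⊤ : (Spec Γ(X, U)).Opens) ≤ hU.fromSpec ⁻¹ᵁ U := by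
    rw [hU.fromSpec_preimage_self]
  have hge : U ≤ hU.fromSpec ''ᵁ ⊤ := by
    rw [Scheme.Hom.image_top_eq_opensRange, hU.opensRange_fromSpec]
  have hM' : Scheme.Modules.IsInvertible ((Scheme.Modules.pullback hU.fromSpec).obj M) :=
    hM.pullback _
  have hinv := H445.invertible_Γ_of_isInvertible hM'
  have hbij := secMap_bijective_of_isOpenImmersion hU.fromSpec M hle hge
  let e : Γ(M, U) ≃ₗ[Γ(X, U)]
      ((moduleSpecΓFunctor (R := Γ(X, U))).obj ((Scheme.Modules.pullback hU.fromSpec).obj M)) :=
    LinearEquiv.ofBijective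
      { toFun := fun s => secMap hU.fromSpec M hle s
        map_add' := fun s t => map_add _ s t
        map_smul' := fun r s => by
          simp only [RingHom.id_apply]
          rw [secMap_smul, fromSpec_appLE_top]
          rfl } hbij
  exact Module.Invertible.congr e.symm

end Invertible

end Fermat.Agent.S25.H386
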