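/-
S25, block DICT (helper386): `Stmt.DictSections` — every rigidified line bundle on `C_A` has a
gluing datum of sections, and it is rigidifiable.
-/
import Fermat.Agent.S25.H386.ChartRig
import Fermat.Agent.S25.H386.SecAffine
import Fermat.Agent.S25.H386.GDBuild

set_option autoImplicit false

open CategoryTheory CategoryTheory.Limits AlgebraicGeometry AlgebraicGeometry.RelPicard
  NeronModelInfra TopologicalSpace Opposite
open Fermat.Agent.S25.H505
open scoped TensorProduct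

universe u

namespace Fermat.Agent.S25.H386

section Setup

variable {k : Type u} [Field k] {C : Scheme.{u}} {c : C ⟶ Spec (CommRingCat.of k)}
  {ε : SchemeHomOver (𝟙 (Spec (CommRingCat.of k))) c} (Ch : ChartOf c ε)

theorem chart_isAffine₀₁ : IsAffineOpen (Ch.U₀ ⊓ Ch.U₁) := by
  rw [Ch.inf_eq₀]
  exact Ch.isAffine₀.basicOpen _

theorem sectionsStr_res {U U' : C.Opens} (h : U' ≤ U) (a : k) :
    resRing h (sectionsStr c U a) = sectionsStr c U' a := by
  have h1 : (Scheme.ΓSpecIso (CommRingCat.of k)).inv ≫ c.appTop ≫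
      C.presheaf.map (homOfLE (le_top : U ≤ ⊤)).op ≫ C.presheaf.map (homOfLE h).op =
      (Scheme.ΓSpecIso (CommRingCat.of k)).inv ≫ c.appTop ≫
        C.presheaf.map (homOfLE (le_top : U' ≤ ⊤)).op := by
    rw [← Functor.map_comp]
    rfl
  exact congr($(h1).hom a)

theorem chart_i₀₁_str (a : k) :
    Ch.i₀₁ (sectionsStr c (Ch.U₀ ⊓ Ch.U₁) a) = algebraMap k Ch.B₀₁ a := by
  rw [← sectionsStr_res (c := c) (inf_le_left : Ch.U₀ ⊓ Ch.U₁ ≤ Ch.U₀) a, Ch.i₀₁_res₀, Ch.i₀_str,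
    ← IsScalarTower.algebraMap_apply]

variable (A : Type u) [CommRing A] [Algebra k A]

/-- chart ring isomorphisms -/
noncomputable def θ₀ : A ⊗[k] Ch.B₀ ≃+* Γ(pullback c (specStr k A), preimageOpen (c := c) A Ch.U₀) :=
  chartEquiv c A Ch.isAffine₀ Ch.i₀ Ch.i₀_str

noncomputable def θ₁ : A ⊗[k] Ch.B₁ ≃+* Γ(pullback c (specStr k A), preimageOpen (c := c) A Ch.U₁) :=
  chartEquiv c A Ch.isAffine₁ Ch.i₁ Ch.i₁_str

noncomputable def θ₀₁ :
    A ⊗[k] Ch.B₀₁ ≃+* Γ(pullback c (specStr k A), preimageOpen (c := c) A (Ch.U₀ ⊓ Ch.U₁)) :=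
  chartEquiv c A (chart_isAffine₀₁ Ch) Ch.i₀₁ (chart_i₀₁_str Ch)

theorem le₀ : preimageOpen (c := c) A (Ch.U₀ ⊓ Ch.U₁) ≤ preimageOpen (c := c) A Ch.U₀ :=
  Scheme.Hom.preimage_mono _ inf_le_left

theorem le₁ : preimageOpen (c := c) A (Ch.U₀ ⊓ Ch.U₁) ≤ preimageOpen (c := c) A Ch.U₁ :=
  Scheme.Hom.preimage_mono _ inf_le_right

theorem res_θ₀ (r : A ⊗[k] Ch.B₀) :
    resRing (le₀ Ch A) (θ₀ Ch A r) = θ₀₁ Ch A (algebraMap (A ⊗[k] Ch.B₀) (A ⊗[k] Ch.B₀₁) r) :=
  res_chartEquiv c A Ch.isAffine₀ (chart_isAffine₀₁ Ch) inf_le_left Ch.i₀ Ch.i₀_str Ch.i₀₁ (chart_i₀₁_str Ch)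
    Ch.i₀₁_res₀ r

theorem res_θ₁ (r : A ⊗[k] Ch.B₁) :
    resRing (le₁ Ch A) (θ₁ Ch A r) = θ₀₁ Ch A (algebraMap (A ⊗[k] Ch.B₁) (A ⊗[k] Ch.B₀₁) r) :=
  res_chartEquiv c A Ch.isAffine₁ (chart_isAffine₀₁ Ch) inf_le_right Ch.i₁ Ch.i₁_str Ch.i₀₁ (chart_i₀₁_str Ch)
    Ch.i₀₁_res₁ r

end Setup

section Main

variable {k : Type u} [Field k] {C : Scheme.{u}} {c : C ⟶ Spec (CommRingCat.of k)}
  {ε : SchemeHomOver (𝟙 (Spec (CommRingCat.of k))) c} (Ch : ChartOf c ε)
  (A : Type u) [CommRing A] [Algebra k A] (M : RigidifiedLineBundle c ε (specStr k A))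

theorem isQuasicoherent_L : M.L.IsQuasicoherent :=
  H445.isQuasicoherent_of_isInvertible M.isInvertible

/-- The gluing datum of sections of a rigidified line bundle. -/
noncomputable def sectionsGD : CurveGD k Ch.B₀ Ch.B₁ Ch.B₀₁ A :=
  haveI : M.L.IsQuasicoherent := isQuasicoherent_L A M
  glueDatumOfSections (A := A) (θ₀ Ch A) (θ₁ Ch A) (θ₀₁ Ch A) (res_θ₀ Ch A) (res_θ₁ Ch A)
    (res_isBC M.L (isAffineOpen_preimageOpen c A Ch.isAffine₀)
      (isAffineOpen_preimageOpen c A (chart_isAffine₀₁ Ch)) (le₀ Ch A))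
    (res_isBC M.L (isAffineOpen_preimageOpen c A Ch.isAffine₁)
      (isAffineOpen_preimageOpen c A (chart_isAffine₀₁ Ch)) (le₁ Ch A))
    (invertible_sections M.L M.isInvertible (isAffineOpen_preimageOpen c A Ch.isAffine₀))
    (invertible_sections M.L M.isInvertible (isAffineOpen_preimageOpen c A Ch.isAffine₁))

theorem corr_sectionsGD : Corr Ch A M.L (sectionsGD Ch A M) := by
  refine ⟨AddEquiv.refl _, AddEquiv.refl _, AddEquiv.refl _, ⟨?_, ?_⟩, ⟨?_, ?_⟩, ⟨?_, ?_⟩,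
    fun s => rfl, fun s => rfl⟩
  · intro a s
    change _ = θ₀ Ch A (a ⊗ₜ[k] 1) • s
    rw [θ₀, chartEquiv_tmul_one]
    rfl
  · intro f s
    change _ = θ₀ Ch A (1 ⊗ₜ[k] Ch.i₀ f) • s
    rw [θ₀, chartEquiv_one_tmul, Ch.i₀.symm_apply_apply]
    rfl
  · intro a s
    change _ = θ₁ Ch A (a ⊗ₜ[k] 1) • s
    rw [θ₁, chartEquiv_tmul_one]
    rfl
  · intro f s
    change _ = θ₁ Ch A (1 ⊗ₜ[k] Ch.i₁ f) • s
    rw [θ₁, chartEquiv_one_tmul, Ch.i₁.symm_apply_apply]
    rfl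
  · intro a s
    change _ = θ₀₁ Ch A (a ⊗ₜ[k] 1) • s
    rw [θ₀₁, chartEquiv_tmul_one]
    rfl
  · intro f s
    change _ = θ₀₁ Ch A (1 ⊗ₜ[k] Ch.i₀₁ f) • s
    rw [θ₀₁, chartEquiv_one_tmul, Ch.i₀₁.symm_apply_apply]
    rfl

/-- sections of the unit module are functions -/
noncomputable def unitToFun {T : Scheme.{u}} (V : T.Opens) :
    Γ(SheafOfModules.unit T.ringCatSheaf, V) →+ Γ(T, V) := AddMonoidHom.id _

theorem unitToFun_smul {T : Scheme.{u}} (V : T.Opens) (r : Γ(T, V))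
    (x : Γ(SheafOfModules.unit T.ringCatSheaf, V)) :
    unitToFun V (r • x) = r * unitToFun V x := rfl

theorem unitToFun_bijective {T : Scheme.{u}} (V : T.Opens) :
    Function.Bijective (unitToFun V) := Function.bijective_id

/-- The rigidification of `M`, on sections over the chart `U₁`: a base change
`Γ(L, fst⁻¹ U₁) → A` along the rigidifying section. -/
noncomputable def rigMap : Γ(M.L, preimageOpen (c := c) A Ch.U₁) →+ A :=
  (((Scheme.ΓSpecIso (CommRingCat.of A)).hom.hom : Γ(Spec (CommRingCat.of A), ⊤) →+* A) :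
      Γ(Spec (CommRingCat.of A), ⊤) →+ A).comp
    ((unitToFun ⊤).comp
      ((M.rigidified.some.hom.app ⊤).hom.comp
        (secMap (rigSection c (specStr k A) ε) M.L (top_le_rigSection_preimage Ch A)).hom))

theorem rigMap_isBC : IsBC (rigRingHom Ch A) (rigMap Ch A M) := by
  haveI : M.L.IsQuasicoherent := isQuasicoherent_L A M
  have hB := secMap_isBC (rigSection c (specStr k A) ε) M.L
    (isAffineOpen_preimageOpen c A Ch.isAffine₁) (isAffineOpen_top _)
    (top_le_rigSection_preimage Ch A)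
  let v : Γ(Spec (CommRingCat.of A), ⊤) →+* A := (Scheme.ΓSpecIso (CommRingCat.of A)).hom.hom
  let u : Γ((Scheme.Modules.pullback (rigSection c (specStr k A) ε)).obj M.L, ⊤) →+ A :=
    (v : Γ(Spec (CommRingCat.of A), ⊤) →+ A).comp
      ((unitToFun ⊤).comp (M.rigidified.some.hom.app ⊤).hom)
  have hu : IsSL v u := fun r x => by
    change v (unitToFun ⊤ ((M.rigidified.some.hom.app ⊤) (r • x))) =
      v r * v (unitToFun ⊤ ((M.rigidified.some.hom.app ⊤) x))
    rw [Scheme.Modules.Hom.app_smul, unitToFun_smul, map_mul]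
  have hv : Function.Bijective v :=
    ConcreteCategory.bijective_of_isIso (Scheme.ΓSpecIso (CommRingCat.of A)).hom
  have hubij : Function.Bijective u :=
    hv.comp ((unitToFun_bijective ⊤).comp
      (ConcreteCategory.bijective_of_isIso (M.rigidified.some.hom.app ⊤)))
  exact hB.comp (isBC_of_bijective hu hv hubij)

theorem rigidifiable_sectionsGD : (sectionsGD Ch A M).Rigidifiable Ch.e := by
  letI inst : Module (A ⊗[k] Ch.B₁) Γ(M.L, preimageOpen (c := c) A Ch.U₁) :=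
    Module.compHom _ (θ₁ Ch A).toRingHom
  have h : IsBC (epsHom Ch.e A).toRingHom (rigMap Ch A M) :=
    isBC_compHom_left (rigMap_isBC Ch A M) (θ₁ Ch A) (epsHom Ch.e A).toRingHom
      (rigRingHom_chartEquiv Ch A)
  exact ⟨{ toFun := rigMap Ch A M
           map_add' := (rigMap Ch A M).map_add
           map_smul' := fun r n => h.sl r n }, isSemilinearBaseChange_of_isBC _ _ h⟩

/-- **DICT-SEC.** -/
theorem dictSections : Stmt.DictSections Ch := fun A _ _ M =>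
  ⟨sectionsGD Ch A M, corr_sectionsGD Ch A M, rigidifiable_sectionsGD Ch A M⟩

end Main

end Fermat.Agent.S25.H386
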