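/-
S25, block DICT (helper386): rigidification from the gluing datum.

* `isSectionsIso_smul`: `IsSectionsIso` means semilinearity over `chartEquiv`.
* `rigidified_of_corr`: if `L` is invertible on `C_A`, `Corr Ch A L G` and `G` is
  rigidifiable, then `σ^* L ≅ 𝒪` for the rigidifying section `σ`.
* `dictGlue_of_exists_corr`: `Stmt.DictGlue` follows from the existence of an invertible `L`
  with `Corr Ch A L G` for every rigidifiable `G`.
-/
import Fermat.Agent.S25.H386.DictSections

set_option autoImplicit false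

open CategoryTheory CategoryTheory.Limits AlgebraicGeometry AlgebraicGeometry.RelPicard
  NeronModelInfra TopologicalSpace Opposite
open Fermat.Agent.S25.H505
open scoped TensorProduct

universe u

namespace Fermat.Agent.S25.H386

section Smul

variable {k : Type u} [Field k] {C : Scheme.{u}} (c : C ⟶ Spec (CommRingCat.of k))
  (A : Type u) [CommRing A] [Algebra k A]

/-- `IsSectionsIso` is semilinearity with respect to `chartEquiv`. -/
theorem isSectionsIso_smul {L : (pullback c (specStr k A)).Modules} {U : C.Opens}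
    (hU : IsAffineOpen U) {B : Type u} [CommRing B] [Algebra k B] (i : Γ(C, U) ≃+* B)
    (hi : ∀ a : k, i (sectionsStr c U a) = algebraMap k B a) {N : Type u} [AddCommGroup N]
    [Module (A ⊗[k] B) N] (e : Γ(L, preimageOpen (c := c) A U) ≃+ N)
    (he : IsSectionsIso A L U i e) (r : A ⊗[k] B) (s : Γ(L, preimageOpen (c := c) A U)) :
    e (chartEquiv c A hU i hi r • s) = r • e s := by
  induction r using TensorProduct.induction_on generalizing s with
  | zero => simp
  | tmul a b =>
    rw [chartEquiv_tmul, mul_smul, he.1, he.2, i.apply_symm_apply, ← mul_smul,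
      Algebra.TensorProduct.tmul_mul_tmul, mul_one, one_mul]
  | add x y hx hy => rw [map_add, add_smul, map_add, hx, hy, add_smul]

end Smul

section Rig

variable {k : Type u} [Field k] {C : Scheme.{u}} {c : C ⟶ Spec (CommRingCat.of k)}
  {ε : SchemeHomOver (𝟙 (Spec (CommRingCat.of k))) c} (Ch : ChartOf c ε)
  (A : Type u) [CommRing A] [Algebra k A]

/-- **Rigidification from the gluing datum.** -/
theorem rigidified_of_corr (L : (pullback c (specStr k A)).Modules)
    (hL : Scheme.Modules.IsInvertible L) (G : CurveGD k Ch.B₀ Ch.B₁ Ch.B₀₁ A)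
    (hC : Corr Ch A L G) (hR : G.Rigidifiable Ch.e) :
    Nonempty ((Scheme.Modules.pullback (rigSection c (specStr k A) ε)).obj L ≅
      SheafOfModules.unit (Spec (CommRingCat.of A)).ringCatSheaf) := by
  haveI : L.IsQuasicoherent := H445.isQuasicoherent_of_isInvertible hL
  obtain ⟨e₀, e₁, e₀₁, h₀, h₁, h₀₁, -, -⟩ := hC
  obtain ⟨b, hb⟩ := hR
  have hbBC : IsBC (epsHom Ch.e A).toRingHom b.toAddMonoidHom :=
    isBC_of_isSemilinearBaseChange _ b hb
  have hsm := isSectionsIso_smul c A Ch.isAffine₁ Ch.i₁ Ch.i₁_str e₁ h₁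
  -- `b ∘ e₁` is a base change along the rigidifying section
  have h2 : IsBC (rigRingHom Ch A) (b.toAddMonoidHom.comp e₁.toAddMonoidHom) := by
    refine hbBC.of_square (α := (θ₁ Ch A).toRingHom) (β := RingHom.id A)
      (a := e₁.symm.toAddMonoidHom) (b := AddMonoidHom.id A) ?_ ?_ (fun _ _ => rfl)
      (θ₁ Ch A).bijective Function.bijective_id e₁.symm.bijective Function.bijective_id ?_ ?_
    · intro f s
      obtain ⟨r, rfl⟩ := (θ₁ Ch A).surjective f
      change b (e₁ (θ₁ Ch A r • s)) = rigRingHom Ch A (θ₁ Ch A r) • b (e₁ s)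
      rw [θ₁, hsm, rigRingHom_chartEquiv]
      exact hbBC.sl r (e₁ s)
    · intro r n
      apply e₁.injective
      change e₁ (e₁.symm (r • n)) = e₁ (θ₁ Ch A r • e₁.symm n)
      rw [θ₁, hsm, e₁.apply_symm_apply, e₁.apply_symm_apply]
    · intro r
      exact rigRingHom_chartEquiv Ch A r
    · intro n
      change b (e₁ (e₁.symm n)) = b n
      rw [e₁.apply_symm_apply]
  have h1 := secMap_isBC (rigSection c (specStr k A) ε) L
    (isAffineOpen_preimageOpen c A Ch.isAffine₁) (isAffineOpen_top _)
    (top_le_rigSection_preimage Ch A)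
  obtain ⟨γ, hγsl, -⟩ := isBC_exists_equiv h1 h2 (RingEquiv.refl _)
    (Scheme.ΓSpecIso (CommRingCat.of A)).commRingCatIsoToRingEquiv (AddEquiv.refl _)
    (fun _ _ => rfl) (fun _ => rfl)
  have hL' : Scheme.Modules.IsInvertible
      ((Scheme.Modules.pullback (rigSection c (specStr k A) ε)).obj L) := hL.pullback _
  let eL : ((moduleSpecΓFunctor (R := CommRingCat.of A)).obj
      ((Scheme.Modules.pullback (rigSection c (specStr k A) ε)).obj L)) ≃ₗ[A] A :=
    { γ with
      map_smul' := fun r x => by
        have := hγsl ((Scheme.ΓSpecIso (CommRingCat.of A)).inv r) x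
        simp only [RingHom.id_apply]
        refine Eq.trans ?_ (this.trans ?_)
        · rfl
        · change (Scheme.ΓSpecIso (CommRingCat.of A)).hom
            ((Scheme.ΓSpecIso (CommRingCat.of A)).inv r) • γ x = r • γ x
          congr 1
          simp }
  exact ⟨(H445.isoTildeΓ hL').symm ≪≫
    (tilde.functor (CommRingCat.of A)).mapIso
      (LinearEquiv.toModuleIso (X₂ := ModuleCat.of A A) eL) ≪≫ tildeSelf⟩

/-- `Stmt.DictGlue` follows from the existence, for every rigidifiable gluing datum `G`, of
an invertible module `L` on `C_A` with `Corr Ch A L G`. -/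
theorem dictGlue_of_exists_corr
    (h : ∀ (A : Type u) [CommRing A] [Algebra k A] (G : CurveGD k Ch.B₀ Ch.B₁ Ch.B₀₁ A),
      G.Rigidifiable Ch.e →
        ∃ L : (pullback c (specStr k A)).Modules, Scheme.Modules.IsInvertible L ∧ Corr Ch A L G) :
    Stmt.DictGlue Ch := by
  intro A _ _ G hR
  obtain ⟨L, hL, hC⟩ := h A G hR
  exact ⟨⟨L, hL, rigidified_of_corr Ch A L hL G hC hR⟩, hC⟩

end Rig

end Fermat.Agent.S25.H386
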